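import Mathlib

set_option autoImplicit false

/-!
# x-coordinate identities for `P + Q` and `P - Q`, centred at a 2-torsion abscissa `e`.
-/

namespace Fermat.Agent.S05.XOnly

open WeierstrassCurve WeierstrassCurve.Affine

noncomputable section

variable {K : Type*} [Field K] (W : Affine K)

/-- twice the centred `a₄`-coefficient: `cc = 2c` with `c = a₄'` of the curve translated by `e`. -/
def cc (e : K) : K := W.b₄ + W.b₂ * e + 6 * e ^ 2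

/-- the centred `b₂`. -/
def bb (e : K) : K := W.b₂ + 12 * e

/-- `e` is a root of the 2-division cubic. -/
def IsTwoRoot (e : K) : Prop := 4 * e ^ 3 + W.b₂ * e ^ 2 + 2 * W.b₄ * e + W.b₆ = 0

/-- the 2-division cubic in centred form. -/
lemma psi2sq_centred {e : K} (he : IsTwoRoot W e) (x : K) :
    4 * x ^ 3 + W.b₂ * x ^ 2 + 2 * W.b₄ * x + W.b₆ =
      4 * (x - e) ^ 3 + bb W e * (x - e) ^ 2 + 2 * cc W e * (x - e) := by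
  simp only [IsTwoRoot] at he
  simp only [bb, cc]
  linear_combination he

variable [DecidableEq K]

/-- sum identity -/
lemma sum_ident {e : K} (he : IsTwoRoot W e) {x₁ x₂ y₁ y₂ : K}
    (h₁ : W.Equation x₁ y₁) (h₂ : W.Equation x₂ y₂) (hx : x₁ ≠ x₂) :
    (W.addX x₁ x₂ (W.slope x₁ x₂ y₁ y₂) + W.addX x₁ x₂ (W.slope x₁ x₂ y₁ (W.negY x₂ y₂)) - 2 * e)
        * (x₁ - x₂) ^ 2 =
      ((x₁ - e) + (x₂ - e)) * (2 * (x₁ - e) * (x₂ - e) + cc W e) + bb W e * (x₁ - e) * (x₂ - e) := by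
  have hd : x₁ - x₂ ≠ 0 := sub_ne_zero.mpr hx
  rw [slope_of_X_ne hx, slope_of_X_ne hx]
  rw [equation_iff] at h₁ h₂
  simp only [IsTwoRoot, b₂, b₄, b₆] at he
  simp only [addX, negY, cc, bb, b₂, b₄]
  field_simp
  linear_combination 2 * h₁ + 2 * h₂ + he

/-- product identity -/
lemma prod_ident {e : K} (he : IsTwoRoot W e) {x₁ x₂ y₁ y₂ : K}
    (h₁ : W.Equation x₁ y₁) (h₂ : W.Equation x₂ y₂) (hx : x₁ ≠ x₂) :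
    4 * (W.addX x₁ x₂ (W.slope x₁ x₂ y₁ y₂) - e)
        * (W.addX x₁ x₂ (W.slope x₁ x₂ y₁ (W.negY x₂ y₂)) - e) * (x₁ - x₂) ^ 2 =
      (2 * (x₁ - e) * (x₂ - e) - cc W e) ^ 2 := by
  have hd : x₁ - x₂ ≠ 0 := sub_ne_zero.mpr hx
  rw [slope_of_X_ne hx, slope_of_X_ne hx]
  rw [equation_iff] at h₁ h₂
  simp only [IsTwoRoot, b₂, b₄, b₆] at he
  simp only [addX, negY, cc, b₂, b₄]
  field_simp
  linear_combination ((-4)*x₁ ^ 3 + (8)*x₁ ^ 2*x₂ + (-4)*x₁ ^ 2*W.a₂ + (-8)*x₁ ^ 2*e + (8)*x₁*x₂ ^ 2 + (4)*x₁*x₂*W.a₁ ^ 2 + (16)*x₁*x₂*W.a₂ + (16)*x₁*x₂*e + (4)*x₁*y₁*W.a₁ + (4)*x₁*W.a₁*W.a₃ + (4)*x₁*W.a₄ + (-8)*x₂ ^ 3 + (-4)*x₂ ^ 2*W.a₁ ^ 2 + (-8)*x₂ ^ 2*W.a₂ + (-8)*x₂ ^ 2*e + (-8)*x₂*y₂*W.a₁ + (-4)*x₂*W.a₁*W.a₃ + (4)*y₁ ^ 2 + (4)*y₁*W.a₃ + (-8)*y₂ ^ 2 + (-8)*y₂*W.a₃ + (4)*W.a₆) * h₁ + ((-16)*x₁ ^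 3 + (8)*x₁ ^ 2*x₂ + (-4)*x₁ ^ 2*W.a₁ ^ 2 + (-16)*x₁ ^ 2*W.a₂ + (-8)*x₁ ^ 2*e + (8)*x₁*x₂ ^ 2 + (4)*x₁*x₂*W.a₁ ^ 2 + (16)*x₁*x₂*W.a₂ + (16)*x₁*x₂*e + (-4)*x₁*W.a₁*W.a₃ + (-8)*x₁*W.a₄ + (-4)*x₂ ^ 3 + (-4)*x₂ ^ 2*W.a₂ + (-8)*x₂ ^ 2*e + (4)*x₂*y₂*W.a₁ + (4)*x₂*W.a₁*W.a₃ + (4)*x₂*W.a₄ + (4)*y₂ ^ 2 + (4)*y₂*W.a₃ + (-4)*W.a₆) * h₂ + ((-4)*x₁ ^ 3 + (4)*x₁ ^ 2*x₂ + -x₁ ^ 2*W.a₁ ^ 2 + (-4)*x₁ ^ 2*W.a₂ + (-4)*x₁ ^ 2*e + (4)*x₁*x₂ ^ 2 + (2)*x₁*x₂*W.a₁ ^ 2 + (8)*x₁*x₂*W.a₂ + (8)*x₁*x₂*e + (-4)*x₂ ^ 3 + -x₂ ^ 2*W.a₁ ^ 2 + (-4)*x₂ ^ 2*W.a₂ + (-4)*x₂ ^ 2*e) * he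

omit [DecidableEq K] in
/-- the 2-division cubic via `y - negY` in centred form -/
lemma sq_sub_negY {e : K} (he : IsTwoRoot W e) {x y : K} (h : W.Equation x y) :
    (y - W.negY x y) ^ 2 =
      4 * (x - e) ^ 3 + bb W e * (x - e) ^ 2 + 2 * cc W e * (x - e) := by
  rw [equation_iff] at h
  simp only [IsTwoRoot, b₂, b₄, b₆] at he
  simp only [negY, cc, bb, b₂, b₄]
  linear_combination 4 * h + he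

/-- duplication identity -/
lemma dup_ident {e : K} (he : IsTwoRoot W e) {x y : K}
    (h : W.Equation x y) (hy : y ≠ W.negY x y) :
    4 * (W.addX x x (W.slope x x y y) - e) * (y - W.negY x y) ^ 2 =
      (2 * (x - e) ^ 2 - cc W e) ^ 2 := by
  have hd : y - W.negY x y ≠ 0 := sub_ne_zero.mpr hy
  rw [slope_of_Y_ne rfl hy]
  rw [equation_iff] at h
  simp only [IsTwoRoot, b₂, b₄, b₆] at he
  simp only [addX, cc, b₂, b₄]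
  field_simp
  simp only [negY] at hd ⊢
  linear_combination ((-32)*x + (-4)*W.a₁ ^ 2 + (-16)*W.a₂ + (-16)*e) * h + ((-8)*x + -W.a₁ ^ 2 + (-4)*W.a₂ + (-4)*e) * he

end

end Fermat.Agent.S05.XOnly
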