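import Mathlib

set_option autoImplicit false
set_option linter.unusedSectionVars false

/-!
# The abstract x-only ladder

Pure ordered-group combinatorics: labels `L j` (think `v (X (j • P))`) of the multiples of a point
of odd order `p`, all lying in the open interval `(0, h)`, which satisfy the x-only pair laws,
force `p • L 1 ∈ ℤ • (2 • h)`.
-/

namespace Fermat.Agent.S05.XOnly

section AdditiveLadder

variable {Γ : Type*} [AddCommGroup Γ] [LinearOrder Γ] [IsOrderedAddMonoid Γ]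

/-- `x ≡ ± y` modulo `ℤ • H`. -/
def Rel (H x y : Γ) : Prop := ∃ k : ℤ, x = y + k • H ∨ x = -y + k • H

lemma Rel.refl (H x : Γ) : Rel H x x := ⟨0, Or.inl (by simp)⟩

lemma Rel.symm {H x y : Γ} (h : Rel H x y) : Rel H y x := by
  obtain ⟨k, h | h⟩ := h
  · exact ⟨-k, Or.inl (by rw [h, neg_smul]; abel)⟩
  · exact ⟨k, Or.inr (by rw [h]; abel)⟩

lemma Rel.trans {H x y z : Γ} (h₁ : Rel H x y) (h₂ : Rel H y z) : Rel H x z := by
  obtain ⟨k, h₁ | h₁⟩ := h₁ <;> obtain ⟨l, h₂ | h₂⟩ := h₂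
  · exact ⟨k + l, Or.inl (by rw [h₁, h₂, add_smul]; abel)⟩
  · exact ⟨k + l, Or.inr (by rw [h₁, h₂, add_smul]; abel)⟩
  · exact ⟨k - l, Or.inr (by rw [h₁, h₂, sub_smul]; abel)⟩
  · exact ⟨k - l, Or.inl (by rw [h₁, h₂, sub_smul]; abel)⟩

lemma Rel.neg_right {H x y : Γ} (h : Rel H x y) : Rel H x (-y) := by
  obtain ⟨k, h | h⟩ := h
  · exact ⟨k, Or.inr (by rw [h]; abel)⟩
  · exact ⟨k, Or.inl h⟩

lemma Rel.of_eq {H x y : Γ} (h : x = y) : Rel H x y := h ▸ Rel.refl H x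

/-- structural lemma: from `a ≡ ± n t` get the classes of `a ± t`. -/
lemma Rel.add_sub {H a t : Γ} {n : ℤ} (h : Rel H a (n • t)) :
    (Rel H (a + t) ((n + 1) • t) ∧ Rel H (a - t) ((n - 1) • t)) ∨
      (Rel H (a + t) ((n - 1) • t) ∧ Rel H (a - t) ((n + 1) • t)) := by
  obtain ⟨k, h | h⟩ := h
  · left
    exact ⟨⟨k, Or.inl (by rw [h, add_smul, one_smul]; abel)⟩,
      ⟨k, Or.inl (by rw [h, sub_smul, one_smul]; abel)⟩⟩
  · right
    exact ⟨⟨k, Or.inr (by rw [h, sub_smul, one_smul]; abel)⟩,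
      ⟨k, Or.inr (by rw [h, add_smul, one_smul]; abel)⟩⟩

lemma no_int_mult {h : Γ} (hh : 0 < h) (n : ℤ) (h0 : 0 < n • h) (h1 : n • h < h) : False := by
  rcases le_or_gt n 0 with hn | hn
  · have : n • h ≤ 0 := by
      have := zsmul_nonneg hh.le (neg_nonneg.mpr hn)
      rw [neg_smul] at this
      exact neg_nonneg.mp this
    exact absurd h0 (not_lt.mpr this)
  · have : h ≤ n • h := (le_smul_iff_one_le_left hh).mpr hn
    exact absurd h1 (not_lt.mpr this)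

/-- a label in `(0,h)` cannot be `≡ ±` an integer multiple of `h` modulo `2h`. -/
lemma Rel.excl {h x : Γ} (hh : 0 < h) {m : ℤ} (hx0 : 0 < x) (hxh : x < h)
    (hr : Rel ((2 : ℤ) • h) x (m • h)) : False := by
  obtain ⟨k, hr | hr⟩ := hr
  · have : x = (m + k * 2) • h := by rw [hr, add_smul, mul_smul]
    rw [this] at hx0 hxh
    exact no_int_mult hh _ hx0 hxh
  · have : x = (-m + k * 2) • h := by rw [hr, add_smul, mul_smul, neg_smul]
    rw [this] at hx0 hxh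
    exact no_int_mult hh _ hx0 hxh

/-- ambiguity lemma. -/
lemma Rel.ambig {h x t : Γ} {n : ℤ} (h₁ : Rel ((2 : ℤ) • h) x ((n + 1) • t))
    (h₂ : Rel ((2 : ℤ) • h) x ((n - 1) • t)) : (∃ m : ℤ, t = m • h) ∨ (∃ m : ℤ, n • t = m • h) := by
  have h₃ := h₁.symm.trans h₂
  obtain ⟨k, h₃ | h₃⟩ := h₃
  · left
    refine ⟨k, ?_⟩
    have : (2 : ℤ) • t = (2 : ℤ) • (k • h) := by
      have e : (n + 1) • t - (n - 1) • t = (2 : ℤ) • t := by
        rw [← sub_smul]; congr 1; ring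
      rw [← e, h₃, smul_comm]; abel
    exact (zsmul_right_inj (by norm_num)).mp this
  · right
    refine ⟨k, ?_⟩
    have : (2 : ℤ) • (n • t) = (2 : ℤ) • (k • h) := by
      have e : (n + 1) • t + (n - 1) • t = (2 : ℤ) • (n • t) := by
        rw [← add_smul, ← mul_smul]; congr 1; ring
      rw [← e, h₃, smul_comm]; abel
    exact (zsmul_right_inj (by norm_num)).mp this

/-- The abstract ladder. -/
theorem ladder {h : Γ} (hh : 0 < h) (N : ℕ) (L : ℕ → Γ)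
    (hL : ∀ j, 1 ≤ j → j ≤ N → 0 < L j ∧ L j < h)
    (h2 : 2 ≤ N → Rel ((2 : ℤ) • h) (L 2) ((2 : ℤ) • L 1))
    (hstep : ∀ j, 2 ≤ j → j + 1 ≤ N →
      (Rel ((2 : ℤ) • h) (L (j + 1)) (L j + L 1) ∧ Rel ((2 : ℤ) • h) (L (j - 1)) (L j - L 1)) ∨
      (Rel ((2 : ℤ) • h) (L (j + 1)) (L j - L 1) ∧ Rel ((2 : ℤ) • h) (L (j - 1)) (L j + L 1))) :
    ∀ j, 1 ≤ j → j ≤ N → Rel ((2 : ℤ) • h) (L j) ((j : ℤ) • L 1) := by
  intro j
  induction j using Nat.strong_induction_on with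
  | _ j ih =>
    intro hj1 hjN
    rcases Nat.lt_or_ge j 2 with hj | hj
    · have : j = 1 := by omega
      subst this
      simpa using Rel.refl _ _
    rcases Nat.lt_or_ge j 3 with hj3 | hj3
    · have : j = 2 := by omega
      subst this
      simpa using h2 hjN
    -- j ≥ 3: use the step at j - 1
    obtain ⟨i, rfl⟩ : ∃ i, j = i + 1 := ⟨j - 1, by omega⟩
    have hi2 : 2 ≤ i := by omega
    have ihi := ih i (by omega) (by omega) (by omega)
    have ihi' := ih (i - 1) (by omega) (by omega) (by omega)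
    have hcast : ((i - 1 : ℕ) : ℤ) = (i : ℤ) - 1 := by
      rw [Nat.cast_sub (by omega)]; simp
    rw [hcast] at ihi'
    have hcast' : ((i + 1 : ℕ) : ℤ) = (i : ℤ) + 1 := by simp
    rw [hcast']
    have key : ¬ (Rel ((2 : ℤ) • h) (L (i - 1)) (((i : ℤ) + 1) • L 1)) := by
      intro hbad
      rcases Rel.ambig hbad ihi' with ⟨m, hm⟩ | ⟨m, hm⟩
      · have := hL 1 le_rfl (by omega)
        rw [hm] at this
        exact no_int_mult hh m this.1 this.2
      · have := hL i (by omega) (by omega)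
        rw [hm] at ihi
        exact Rel.excl hh this.1 this.2 ihi
    rcases hstep i hi2 hjN with ⟨hA, hB⟩ | ⟨hA, hB⟩ <;> rcases Rel.add_sub ihi with ⟨hC, hD⟩ | ⟨hC, hD⟩
    · exact hA.trans hC
    · exact absurd (hB.trans hD) key
    · exact absurd (hB.trans hC) key
    · exact hA.trans hD

/-- Consequence for a point of odd order `p`. -/
theorem ladder_torsion {h : Γ} (hh : 0 < h) (p : ℕ) (hp : 3 ≤ p) (L : ℕ → Γ)
    (hL : ∀ j, 1 ≤ j → j ≤ p - 1 → 0 < L j ∧ L j < h)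
    (hsymm : L (p - 1) = L 1)
    (h2 : Rel ((2 : ℤ) • h) (L 2) ((2 : ℤ) • L 1))
    (hstep : ∀ j, 2 ≤ j → j + 1 ≤ p - 1 →
      (Rel ((2 : ℤ) • h) (L (j + 1)) (L j + L 1) ∧ Rel ((2 : ℤ) • h) (L (j - 1)) (L j - L 1)) ∨
      (Rel ((2 : ℤ) • h) (L (j + 1)) (L j - L 1) ∧ Rel ((2 : ℤ) • h) (L (j - 1)) (L j + L 1))) :
    ∃ k : ℤ, (p : ℤ) • L 1 = k • ((2 : ℤ) • h) := by
  have hlad := ladder hh (p - 1) L hL (fun _ => h2) hstep
  have h1 := hlad (p - 1) (by omega) le_rfl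
  have h2' := hlad (p - 2) (by omega) (by omega)
  rw [hsymm] at h1
  have hc1 : ((p - 1 : ℕ) : ℤ) = (p : ℤ) - 1 := by
    rw [Nat.cast_sub (by omega)]; simp
  have hc2 : ((p - 2 : ℕ) : ℤ) = (p : ℤ) - 2 := by
    rw [Nat.cast_sub (by omega)]; simp
  rw [hc1] at h1
  rw [hc2] at h2'
  obtain ⟨k, h1 | h1⟩ := h1
  · exfalso
    have e : ((p : ℤ) - 2) • L 1 = (-k * 2) • h := by
      have : ((p : ℤ) - 2) • L 1 = ((p : ℤ) - 1) • L 1 - L 1 := by
        rw [sub_smul, sub_smul, one_smul]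
        rw [show ((2 : ℤ) • L 1) = L 1 + L 1 by rw [two_smul]]
        abel
      rw [this, mul_smul, neg_smul]
      have h1' : ((p : ℤ) - 1) • L 1 - L 1 = - (k • (2 : ℤ) • h) := by
        nth_rewrite 2 [h1]
        abel
      rw [h1']
    rw [e] at h2'
    have := hL (p - 2) (by omega) (by omega)
    exact Rel.excl hh this.1 this.2 h2'
  · refine ⟨k, ?_⟩
    have : (p : ℤ) • L 1 = ((p : ℤ) - 1) • L 1 + L 1 := by
      rw [sub_smul, one_smul]; abel
    rw [this]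
    nth_rewrite 2 [h1]
    abel

end AdditiveLadder

section MulLadder

variable {Γ₀ : Type*} [LinearOrderedCommGroupWithZero Γ₀]

/-- negated additive logarithm of a nonzero element of the value group. -/
noncomputable def nlog (x : Γ₀) : Additive Γ₀ˣ :=
  if h : x = 0 then 0 else Additive.ofMul (Units.mk0 x h)⁻¹

lemma nlog_of_ne {x : Γ₀} (h : x ≠ 0) : nlog x = Additive.ofMul (Units.mk0 x h)⁻¹ := dif_neg h

lemma nlog_one : nlog (1 : Γ₀) = 0 := by
  rw [nlog_of_ne one_ne_zero]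
  simp

lemma nlog_mul {x y : Γ₀} (hx : x ≠ 0) (hy : y ≠ 0) : nlog (x * y) = nlog x + nlog y := by
  rw [nlog_of_ne hx, nlog_of_ne hy, nlog_of_ne (mul_ne_zero hx hy), ← ofMul_mul, ← mul_inv]
  congr 2
  ext
  simp

lemma nlog_inv {x : Γ₀} (hx : x ≠ 0) : nlog x⁻¹ = - nlog x := by
  have h := nlog_mul hx (inv_ne_zero hx)
  rw [mul_inv_cancel₀ hx, nlog_one] at h
  exact (neg_eq_of_add_eq_zero_right h.symm).symm

lemma nlog_div {x y : Γ₀} (hx : x ≠ 0) (hy : y ≠ 0) : nlog (x / y) = nlog x - nlog y := by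
  rw [div_eq_mul_inv, nlog_mul hx (inv_ne_zero hy), nlog_inv hy, sub_eq_add_neg]

lemma nlog_pow {x : Γ₀} (hx : x ≠ 0) (n : ℕ) : nlog (x ^ n) = n • nlog x := by
  induction n with
  | zero => simp [nlog_one]
  | succ n ih => rw [pow_succ, nlog_mul (pow_ne_zero n hx) hx, ih, succ_nsmul]

lemma nlog_lt_nlog {x y : Γ₀} (hx : x ≠ 0) (hy : y ≠ 0) : nlog x < nlog y ↔ y < x := by
  rw [nlog_of_ne hx, nlog_of_ne hy, Additive.ofMul_lt, inv_lt_inv_iff]
  rw [← Units.val_lt_val]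
  simp

lemma nlog_injective {x y : Γ₀} (hx : x ≠ 0) (hy : y ≠ 0) (h : nlog x = nlog y) : x = y := by
  rw [nlog_of_ne hx, nlog_of_ne hy] at h
  have := Additive.ofMul.injective h
  have := inv_injective this
  simpa using congrArg Units.val this

/-- The multiplicative form of the ladder, with the conclusion `Lm 1 = τ ^ n`. -/
theorem mul_ladder {C τ : Γ₀} (hC0 : C ≠ 0) (hC1 : C < 1) (p : ℕ) (hp : 3 ≤ p)
    (hτ : τ ^ p = C ^ 2) (Lm : ℕ → Γ₀)
    (hL : ∀ j, 1 ≤ j → j ≤ p - 1 → C < Lm j ∧ Lm j < 1)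
    (hsymm : Lm (p - 1) = Lm 1)
    (h2 : Lm 2 = Lm 1 ^ 2 ∨ Lm 2 = C ^ 2 / Lm 1 ^ 2)
    (hstep : ∀ j, 2 ≤ j → j + 1 ≤ p - 1 → ∃ u w,
      (u = Lm j / Lm 1 ∨ u = Lm 1 / Lm j) ∧ (w = Lm j * Lm 1 ∨ w = C ^ 2 / (Lm j * Lm 1)) ∧
      ((Lm (j + 1) = w ∧ Lm (j - 1) = u) ∨ (Lm (j + 1) = u ∧ Lm (j - 1) = w))) :
    ∃ n : ℕ, 1 ≤ n ∧ 2 * n < p ∧ Lm 1 = τ ^ n := by
  have hτ0 : τ ≠ 0 := by
    intro h0
    rw [h0, zero_pow (by omega)] at hτ
    exact pow_ne_zero 2 hC0 hτ.symm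
  have hne : ∀ j, 1 ≤ j → j ≤ p - 1 → Lm j ≠ 0 := fun j h1 h2 =>
    ne_of_gt (lt_of_le_of_lt zero_le (hL j h1 h2).1)
  set L : ℕ → Additive Γ₀ˣ := fun j => nlog (Lm j) with hLdef
  set h := nlog C with hh
  set T := nlog τ with hT
  have hh0 : 0 < h := by
    rw [← nlog_one (Γ₀ := Γ₀), hh, nlog_lt_nlog one_ne_zero hC0]
    exact hC1
  have hC2 : nlog (C ^ 2) = (2 : ℤ) • h := by
    rw [nlog_pow hC0, hh]; norm_cast
  have hL' : ∀ j, 1 ≤ j → j ≤ p - 1 → 0 < L j ∧ L j < h := by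
    intro j h1 h2
    have := hL j h1 h2
    constructor
    · rw [← nlog_one (Γ₀ := Γ₀), hLdef, nlog_lt_nlog one_ne_zero (hne j h1 h2)]
      exact this.2
    · rw [hLdef, hh, nlog_lt_nlog (hne j h1 h2) hC0]
      exact this.1
  have h1ne := hne 1 le_rfl (by omega)
  have h2' : Rel ((2 : ℤ) • h) (L 2) ((2 : ℤ) • L 1) := by
    rcases h2 with h2 | h2
    · refine ⟨0, Or.inl ?_⟩
      simp only [hLdef]
      rw [h2, nlog_pow h1ne, zero_smul, add_zero]
      norm_cast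
    · refine ⟨1, Or.inr ?_⟩
      simp only [hLdef]
      rw [h2, nlog_div (pow_ne_zero 2 hC0) (pow_ne_zero 2 h1ne), hC2, nlog_pow h1ne]
      simp only [one_smul]
      rw [sub_eq_add_neg, add_comm]
      norm_cast
  have hstep' : ∀ j, 2 ≤ j → j + 1 ≤ p - 1 →
      (Rel ((2 : ℤ) • h) (L (j + 1)) (L j + L 1) ∧ Rel ((2 : ℤ) • h) (L (j - 1)) (L j - L 1)) ∨
      (Rel ((2 : ℤ) • h) (L (j + 1)) (L j - L 1) ∧ Rel ((2 : ℤ) • h) (L (j - 1)) (L j + L 1)) := by
    intro j hj2 hjp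
    obtain ⟨u, w, hu, hw, hcase⟩ := hstep j hj2 hjp
    have hjne := hne j (by omega) (by omega)
    have hu' : Rel ((2 : ℤ) • h) (nlog u) (L j - L 1) := by
      rcases hu with hu | hu
      · refine ⟨0, Or.inl ?_⟩
        rw [hu, nlog_div hjne h1ne]; simp [hLdef]
      · refine ⟨0, Or.inr ?_⟩
        rw [hu, nlog_div h1ne hjne]; simp [hLdef]
    have hw' : Rel ((2 : ℤ) • h) (nlog w) (L j + L 1) := by
      rcases hw with hw | hw
      · refine ⟨0, Or.inl ?_⟩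
        rw [hw, nlog_mul hjne h1ne]; simp [hLdef]
      · refine ⟨1, Or.inr ?_⟩
        rw [hw, nlog_div (pow_ne_zero 2 hC0) (mul_ne_zero hjne h1ne), hC2, nlog_mul hjne h1ne]
        simp only [hLdef, one_smul]
        abel
    rcases hcase with ⟨ha, hb⟩ | ⟨ha, hb⟩
    · left
      simp only [hLdef]
      rw [ha, hb]
      exact ⟨hw', hu'⟩
    · right
      simp only [hLdef]
      rw [ha, hb]
      exact ⟨hu', hw'⟩
  have hsymm' : L (p - 1) = L 1 := by simp only [hLdef]; rw [hsymm]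
  obtain ⟨k, hk⟩ := ladder_torsion hh0 p hp L hL' hsymm' h2' hstep'
  -- relate with τ
  have hpT : (p : ℤ) • T = (2 : ℤ) • h := by
    rw [← hC2, ← hτ, nlog_pow hτ0, hT]; norm_cast
  have hT0 : 0 < T := by
    by_contra hcon
    rw [not_lt] at hcon
    have : (p : ℤ) • T ≤ 0 := by
      have := zsmul_nonneg (neg_nonneg.mpr hcon) (Int.natCast_nonneg p)
      rw [smul_neg] at this
      exact neg_nonneg.mp this
    rw [hpT] at this
    have h2h : 0 < (2 : ℤ) • h := zsmul_pos hh0 (by norm_num)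
    exact absurd h2h (not_lt.mpr this)
  have hL1 : L 1 = k • T := by
    have : (p : ℤ) • L 1 = (p : ℤ) • (k • T) := by
      rw [hk, ← hpT, smul_comm]
    exact (zsmul_right_inj (by omega)).mp this
  have hl1 := hL' 1 le_rfl (by omega)
  have hk0 : 0 < k := by
    by_contra hcon
    rw [not_lt] at hcon
    have := (smul_nonpos_iff_nonpos_of_pos_right hT0).mpr hcon
    rw [← hL1] at this
    exact absurd hl1.1 (not_lt.mpr this)
  have hk2 : 2 * k < p := by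
    have h3 : (2 : ℤ) • L 1 < (2 : ℤ) • h := (zsmul_lt_zsmul_iff_right (by norm_num)).mpr hl1.2
    rw [← hpT, hL1, ← mul_smul] at h3
    exact (zsmul_lt_zsmul_iff_left hT0).mp h3
  obtain ⟨n, rfl⟩ := Int.eq_ofNat_of_zero_le hk0.le
  refine ⟨n, by omega, by omega, ?_⟩
  apply nlog_injective h1ne (pow_ne_zero n hτ0)
  rw [nlog_pow hτ0]
  have : L 1 = nlog (Lm 1) := rfl
  rw [← this, hL1, hT]
  norm_cast

end MulLadder

end Fermat.Agent.S05.XOnly
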