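import Fermat.Agent.S05.XOnly.Points
import Fermat.Agent.S05.XOnly.Ladder

set_option autoImplicit false
set_option linter.unusedSectionVars false

/-!
# The x-only label calculus: `E0` is a subgroup and every `p`-torsion point lies in `ℤ • Q + E0`
-/

namespace Fermat.Agent.S05.XOnly

open WeierstrassCurve WeierstrassCurve.Affine

noncomputable section

variable {K : Type*} [Field K] [DecidableEq K] {W : Affine K}
  {Γ₀ : Type*} [LinearOrderedCommGroupWithZero Γ₀] (v : Valuation K Γ₀) (e : K)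

/-- label of a point: `v (x - e)`, and `1` at infinity. -/
def lab : W.Point → Γ₀
  | .zero => 1
  | .some x _ _ => v (x - e)

@[simp] lemma lab_zero : lab v e (0 : W.Point) = 1 := rfl

@[simp] lemma lab_some {x y : K} (h : W.Nonsingular x y) :
    lab v e (Point.some x y h) = v (x - e) := rfl

@[simp] lemma lab_neg (P : W.Point) : lab v e (-P) = lab v e P := by
  cases P with
  | zero => rfl
  | some x y h => rfl

lemma lab_of_ne_zero {P : W.Point} (hP : P ≠ 0) : lab v e P = v (Xc W e P) := by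
  cases P with
  | zero => exact absurd rfl hP
  | some x y h => rfl

lemma ne_zero_of_lab_lt {P : W.Point} (h : lab v e P < 1) : P ≠ 0 := by
  rintro rfl
  simp at h

/-- The standing hypotheses of the multiplicative local situation. -/
structure MultData (v : Valuation K Γ₀) (W : Affine K) (e : K) : Prop where
  root : IsTwoRoot W e
  v2 : v 2 = 1
  vb : v (bb W e) = 1
  c0 : cc W e ≠ 0
  c1 : v (cc W e) < 1

variable {v e}

lemma MultData.vc_pos (H : MultData v W e) : 0 < v (cc W e) := by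
  rw [zero_lt_iff, Valuation.ne_zero_iff]; exact H.c0

/-- PL4 on points. -/
lemma lab_add_sub_lt (H : MultData v W e) {P Q : W.Point} (hP : 1 ≤ lab v e P)
    (hQ : lab v e Q < 1) : lab v e (P + Q) < 1 ∧ lab v e (P - Q) < 1 := by
  by_cases hP0 : P = 0
  · subst hP0
    simpa using hQ
  have hQ0 := ne_zero_of_lab_lt v e hQ
  rw [lab_of_ne_zero v e hP0] at hP
  rw [lab_of_ne_zero v e hQ0] at hQ
  have hx : Xc W e P ≠ Xc W e Q := by
    intro h
    rw [h] at hP
    exact absurd hQ (not_lt.mpr hP)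
  obtain ⟨h1, h2, hS, hPr⟩ := pair_ident H.root hP0 hQ0 hx
  rw [lab_of_ne_zero v e h1, lab_of_ne_zero v e h2]
  have hPr' : 4 * Xc W e (P + Q) * Xc W e (P - Q) * (Xc W e P - Xc W e Q) ^ 2 =
      (2 * Xc W e P * Xc W e Q - cc W e) ^ 2 := hPr
  exact pl4 v H.v2 H.vb H.c1 hS hPr' hP hQ

/-- The subgroup `E0` of points with `1 ≤ v (x - e)` (together with `0`). -/
def E0 (H : MultData v W e) : AddSubgroup W.Point where
  carrier := {P | 1 ≤ lab v e P}
  zero_mem' := by simp
  add_mem' := by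
    intro P Q hP hQ
    change 1 ≤ lab v e P at hP
    change 1 ≤ lab v e Q at hQ
    change 1 ≤ lab v e (P + Q)
    by_contra hcon
    rw [not_le] at hcon
    have := (lab_add_sub_lt H hQ hcon).2
    have e1 : Q - (P + Q) = -P := by abel
    rw [e1, lab_neg] at this
    exact absurd this (not_lt.mpr hP)
  neg_mem' := by
    intro P hP
    simpa using hP

lemma mem_E0 (H : MultData v W e) {P : W.Point} : P ∈ E0 H ↔ 1 ≤ lab v e P := Iff.rfl

/-- PL3 on points: equal labels in `(C,1)` differ (up to sign) by an element of `E0`. -/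
lemma pl3_point (H : MultData v W e) {P Q : W.Point} (hPQ : lab v e P = lab v e Q)
    (hC : v (cc W e) < lab v e P) (h1 : lab v e P < 1) : P - Q ∈ E0 H ∨ P + Q ∈ E0 H := by
  have hP0 := ne_zero_of_lab_lt v e h1
  have hQ0 := ne_zero_of_lab_lt v e (hPQ ▸ h1)
  by_cases hx : Xc W e P = Xc W e Q
  · cases P with
    | zero => exact absurd rfl hP0
    | some x₁ y₁ h₁ =>
    cases Q with
    | zero => exact absurd rfl hQ0
    | some x₂ y₂ h₂ =>
    simp only [Xc_some] at hx
    have hx' : x₁ = x₂ := by linear_combination hx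
    rcases Point.X_eq_iff.mp hx' with h | h
    · left
      rw [h, sub_self]
      exact (E0 H).zero_mem
    · right
      rw [h, neg_add_cancel]
      exact (E0 H).zero_mem
  · obtain ⟨h1', h2', hS, -⟩ := pair_ident H.root hP0 hQ0 hx
    rw [lab_of_ne_zero v e hP0] at hC h1 hPQ
    rw [lab_of_ne_zero v e hQ0] at hPQ
    rcases pl3 v H.v2 H.vb hS hx hPQ hC h1 with h | h
    · right
      rw [mem_E0, lab_of_ne_zero v e h1']
      exact h
    · left
      rw [mem_E0, lab_of_ne_zero v e h2']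
      exact h

/-- PL2' on points. -/
lemma add_self_mem_E0 (H : MultData v W e) {P : W.Point} (hP0 : P ≠ 0)
    (h : lab v e P ≤ v (cc W e)) : P + P ∈ E0 H := by
  obtain ⟨hz, hnz⟩ := dup_point H.root hP0
  by_cases hD : 4 * Xc W e P ^ 3 + bb W e * Xc W e P ^ 2 + 2 * cc W e * Xc W e P = 0
  · rw [hz hD]
    exact (E0 H).zero_mem
  · obtain ⟨hne, hid⟩ := hnz hD
    rw [mem_E0, lab_of_ne_zero v e hne]
    rw [lab_of_ne_zero v e hP0] at h
    exact pl2' v H.v2 H.vb H.c1 hid hD H.c0 h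

/-- PL2 on points. -/
lemma lab_add_self (H : MultData v W e) {P : W.Point} (hC : v (cc W e) < lab v e P)
    (h1 : lab v e P < 1) :
    (v (cc W e) < lab v e P ^ 2 → lab v e (P + P) = lab v e P ^ 2) ∧
    (lab v e P ^ 2 < v (cc W e) → lab v e (P + P) = v (cc W e) ^ 2 / lab v e P ^ 2) ∧
    (lab v e P ^ 2 = v (cc W e) → lab v e (P + P) ≤ v (cc W e)) := by
  have hP0 := ne_zero_of_lab_lt v e h1
  obtain ⟨-, hnz⟩ := dup_point H.root hP0
  by_cases hD : 4 * Xc W e P ^ 3 + bb W e * Xc W e P ^ 2 + 2 * cc W e * Xc W e P = 0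
  · exfalso
    rw [lab_of_ne_zero v e hP0] at hC h1
    have hv := val_dup_den v H.v2 H.vb hC h1
    rw [hD, map_zero] at hv
    exact (pow_pos (lt_of_le_of_lt zero_le hC) 2).ne' hv.symm
  · obtain ⟨hne, hid⟩ := hnz hD
    rw [lab_of_ne_zero v e hne, lab_of_ne_zero v e hP0]
    rw [lab_of_ne_zero v e hP0] at hC h1
    exact (pl2 v H.v2 H.vb hid hC h1).2

/-- PL1 on points. -/
lemma lab_pair (H : MultData v W e) {P Q : W.Point} (hPQ : lab v e P < lab v e Q)
    (hC : v (cc W e) < lab v e P) (h1 : lab v e Q < 1) :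
    ∃ w : Γ₀, ((lab v e (P + Q) = lab v e P / lab v e Q ∧ lab v e (P - Q) = w) ∨
        (lab v e (P + Q) = w ∧ lab v e (P - Q) = lab v e P / lab v e Q)) ∧
      (v (cc W e) < lab v e P * lab v e Q → w = lab v e P * lab v e Q) ∧
      (lab v e P * lab v e Q < v (cc W e) → w = v (cc W e) ^ 2 / (lab v e P * lab v e Q)) ∧
      (lab v e P * lab v e Q = v (cc W e) → w ≤ v (cc W e)) := by
  have hP0 := ne_zero_of_lab_lt v e (lt_trans hPQ h1)
  have hQ0 := ne_zero_of_lab_lt v e h1
  rw [lab_of_ne_zero v e hP0, lab_of_ne_zero v e hQ0] at *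
  have hx : Xc W e P ≠ Xc W e Q := by
    intro h
    rw [h] at hPQ
    exact lt_irrefl _ hPQ
  obtain ⟨h1', h2', hS, hPr⟩ := pair_ident H.root hP0 hQ0 hx
  rw [lab_of_ne_zero v e h1', lab_of_ne_zero v e h2']
  exact pl1 v H.v2 H.vb hS hPr hPQ hC h1

section Cyclic

variable (H : MultData v W e) {p : ℕ} (hp : p.Prime) (hp2 : p ≠ 2) {P : W.Point}
  (hpP : p • P = 0) (hP : P ∉ E0 H)

include hp hpP hP in
lemma nsmul_notMem (j : ℕ) (hj : ¬ p ∣ j) : j • P ∉ E0 H := by
  intro hmem
  apply hP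
  have hcop : Nat.gcd j p = 1 := (Nat.Coprime.symm ((Nat.Prime.coprime_iff_not_dvd hp).mpr hj))
  have hb := Nat.gcd_eq_gcd_ab j p
  rw [hcop] at hb
  have : P = (Nat.gcdA j p) • (j • P) + (Nat.gcdB j p) • (p • P) := by
    rw [← natCast_zsmul, ← natCast_zsmul, ← mul_smul, ← mul_smul, ← add_smul]
    rw [mul_comm (Nat.gcdA j p), mul_comm (Nat.gcdB j p), ← hb]
    simp
  rw [this, hpP, smul_zero, add_zero]
  exact (E0 H).zsmul_mem hmem _

include hp hp2 in
lemma not_dvd_two_mul {j : ℕ} (hj : ¬ p ∣ j) : ¬ p ∣ 2 * j := by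
  intro h
  rcases (Nat.Prime.dvd_mul hp).mp h with h | h
  · exact hp2 ((Nat.prime_dvd_prime_iff_eq hp Nat.prime_two).mp h)
  · exact hj h

include hp hp2 hpP hP in
lemma lab_nsmul_bounds (j : ℕ) (hj : ¬ p ∣ j) :
    v (cc W e) < lab v e (j • P) ∧ lab v e (j • P) < 1 := by
  have h1 : lab v e (j • P) < 1 := by
    have := nsmul_notMem H hp hpP hP j hj
    rw [mem_E0, not_le] at this
    exact this
  refine ⟨?_, h1⟩
  by_contra hcon
  rw [not_lt] at hcon
  have := add_self_mem_E0 H (ne_zero_of_lab_lt v e h1) hcon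
  rw [← two_nsmul, ← mul_smul] at this
  exact nsmul_notMem H hp hpP hP (2 * j) (not_dvd_two_mul hp hp2 hj) this

lemma pred_nsmul {P : W.Point} {j : ℕ} (hj : 1 ≤ j) : (j - 1) • P = j • P - P := by
  obtain ⟨i, rfl⟩ : ∃ i, j = i + 1 := ⟨j - 1, by omega⟩
  rw [Nat.add_sub_cancel, succ_nsmul, add_sub_cancel_right]

include hp hp2 hpP hP in
lemma lab_nsmul_ne (j : ℕ) (hj2 : 2 ≤ j) (hjp : j + 1 ≤ p - 1) :
    lab v e (j • P) ≠ lab v e P := by
  intro heq
  have hj : ¬ p ∣ j := Nat.not_dvd_of_pos_of_lt (by omega) (by omega)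
  have hj1 : ¬ p ∣ (j - 1) := Nat.not_dvd_of_pos_of_lt (by omega) (by omega)
  have hj2' : ¬ p ∣ (j + 1) := Nat.not_dvd_of_pos_of_lt (by omega) (by omega)
  obtain ⟨hC, h1⟩ := lab_nsmul_bounds H hp hp2 hpP hP j hj
  rcases pl3_point H heq hC h1 with h | h
  · rw [← pred_nsmul (by omega)] at h
    exact nsmul_notMem H hp hpP hP (j - 1) hj1 h
  · rw [← succ_nsmul] at h
    exact nsmul_notMem H hp hpP hP (j + 1) hj2' h

include hp hp2 hpP hP in
/-- The label of a `p`-torsion point outside `E0` is a power `τ ^ n`, `1 ≤ n < p / 2`, of any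
`τ` with `τ ^ p = v(cc) ^ 2`. -/
theorem lab_eq_pow {τ : Γ₀} (hτ : τ ^ p = v (cc W e) ^ 2) :
    ∃ n : ℕ, 1 ≤ n ∧ 2 * n < p ∧ lab v e P = τ ^ n := by
  have hp3 : 3 ≤ p := by have := hp.two_le; omega
  have hnd : ∀ j, 1 ≤ j → j ≤ p - 1 → ¬ p ∣ j := fun j h1 h2 =>
    Nat.not_dvd_of_pos_of_lt (by omega) (by omega)
  have hbd := lab_nsmul_bounds H hp hp2 hpP hP
  have key := mul_ladder (C := v (cc W e)) (τ := τ) H.vc_pos.ne' H.c1 p hp3 hτ
    (fun j => lab v e (j • P)) ?_ ?_ ?_ ?_
  · simpa using key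
  · intro j h1 h2
    exact hbd j (hnd j h1 h2)
  · rw [one_smul, pred_nsmul hp.one_le, hpP, zero_sub, lab_neg]
  · rw [one_smul, two_nsmul]
    have h1 := hbd 1 (hnd 1 le_rfl (by omega))
    rw [one_smul] at h1
    obtain ⟨ha, hb, hc⟩ := lab_add_self H h1.1 h1.2
    rcases lt_trichotomy (v (cc W e)) (lab v e P ^ 2) with h | h | h
    · exact Or.inl (ha h)
    · exfalso
      have h2 := hbd 2 (hnd 2 (by omega) (by omega))
      rw [two_nsmul] at h2
      exact absurd h2.1 (not_lt.mpr (hc h.symm))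
    · exact Or.inr (hb h)
  · intro j hj2 hjp
    rw [one_smul, succ_nsmul, pred_nsmul (by omega : 1 ≤ j)]
    have h1 := hbd 1 (hnd 1 le_rfl (by omega))
    rw [one_smul] at h1
    have hj := hbd j (hnd j (by omega) (by omega))
    have hjm := hbd (j - 1) (hnd (j - 1) (by omega) (by omega))
    have hjp' := hbd (j + 1) (hnd (j + 1) (by omega) (by omega))
    rw [pred_nsmul (by omega : 1 ≤ j)] at hjm
    rw [succ_nsmul] at hjp'
    have hne := lab_nsmul_ne H hp hp2 hpP hP j hj2 hjp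
    rcases lt_or_gt_of_ne hne with hlt | hlt
    · -- lab (jP) < lab P
      obtain ⟨w, hcase, hw1, hw2, hw3⟩ := lab_pair H hlt hj.1 h1.2
      have hw : w = lab v e (j • P) * lab v e P ∨
          w = v (cc W e) ^ 2 / (lab v e (j • P) * lab v e P) := by
        rcases lt_trichotomy (v (cc W e)) (lab v e (j • P) * lab v e P) with h | h | h
        · exact Or.inl (hw1 h)
        · exfalso
          have hle := hw3 h.symm
          rcases hcase with ⟨-, hb⟩ | ⟨ha, -⟩
          · rw [← hb] at hle; exact absurd hjm.1 (not_lt.mpr hle)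
          · rw [← ha] at hle; exact absurd hjp'.1 (not_lt.mpr hle)
        · exact Or.inr (hw2 h)
      refine ⟨lab v e (j • P) / lab v e P, w, Or.inl rfl, hw, ?_⟩
      rcases hcase with ⟨ha, hb⟩ | ⟨ha, hb⟩
      · exact Or.inr ⟨ha, hb⟩
      · exact Or.inl ⟨ha, hb⟩
    · -- lab P < lab (jP)
      obtain ⟨w, hcase, hw1, hw2, hw3⟩ := lab_pair H hlt h1.1 hj.2
      have e1 : P + j • P = j • P + P := add_comm _ _
      have e2 : lab v e (P - j • P) = lab v e (j • P - P) := by
        rw [← lab_neg, neg_sub]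
      rw [e1, e2] at hcase
      rw [mul_comm (lab v e P)] at hw1 hw2 hw3
      have hw : w = lab v e (j • P) * lab v e P ∨
          w = v (cc W e) ^ 2 / (lab v e (j • P) * lab v e P) := by
        rcases lt_trichotomy (v (cc W e)) (lab v e (j • P) * lab v e P) with h | h | h
        · exact Or.inl (hw1 h)
        · exfalso
          have hle := hw3 h.symm
          rcases hcase with ⟨-, hb⟩ | ⟨ha, -⟩
          · rw [← hb] at hle; exact absurd hjm.1 (not_lt.mpr hle)
          · rw [← ha] at hle; exact absurd hjp'.1 (not_lt.mpr hle)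
        · exact Or.inr (hw2 h)
      refine ⟨lab v e P / lab v e (j • P), w, Or.inr rfl, hw, ?_⟩
      rcases hcase with ⟨ha, hb⟩ | ⟨ha, hb⟩
      · exact Or.inr ⟨ha, hb⟩
      · exact Or.inl ⟨ha, hb⟩

end Cyclic

section Final

variable (H : MultData v W e) {p : ℕ} (hp : p.Prime) (hp2 : p ≠ 2)

include H hp in
lemma tau_facts {τ : Γ₀} (hτ : τ ^ p = v (cc W e) ^ 2) :
    0 < τ ∧ τ < 1 ∧ ∀ m, 2 * m < p → v (cc W e) < τ ^ m := by
  have hC0 := H.vc_pos
  have hC2 : v (cc W e) ^ 2 < 1 := by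
    have := pow_lt_pow_left₀ H.c1 zero_le (two_ne_zero)
    simpa using this
  have h0 : 0 < τ := by
    rw [zero_lt_iff]
    intro h0
    rw [h0, zero_pow hp.ne_zero] at hτ
    exact (pow_pos hC0 2).ne' hτ.symm
  have h1 : τ < 1 := by
    by_contra hcon
    rw [not_lt] at hcon
    have := one_le_pow₀ (n := p) hcon
    rw [hτ] at this
    exact absurd hC2 (not_lt.mpr this)
  refine ⟨h0, h1, ?_⟩
  intro m hm
  have : v (cc W e) ^ 2 < (τ ^ m) ^ 2 := by
    rw [← hτ, ← pow_mul, mul_comm]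
    exact pow_lt_pow_right_of_lt_one₀ h0 h1 hm
  exact lt_of_pow_lt_pow_left' 2 this

include H hp in
/-- labels of the small multiples of the special point. -/
lemma lab_nsmul_special {Q : W.Point} (hQ : lab v e Q ^ p = v (cc W e) ^ 2) :
    ∀ m, 1 ≤ m → 2 * m < p → lab v e (m • Q) = lab v e Q ^ m := by
  obtain ⟨h0, h1, hC⟩ := tau_facts H hp hQ
  set τ := lab v e Q with hτdef
  intro m
  induction m using Nat.strong_induction_on with
  | _ m ih =>
    intro hm1 hmp
    rcases Nat.lt_or_ge m 2 with hm | hm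
    · have : m = 1 := by omega
      subst this
      rw [one_smul, pow_one]
    rcases Nat.lt_or_ge m 3 with hm3 | hm3
    · have : m = 2 := by omega
      subst this
      rw [two_nsmul]
      have hC1 := hC 1 (by omega)
      rw [pow_one] at hC1
      exact (lab_add_self H hC1 h1).1 (hC 2 hmp)
    obtain ⟨i, rfl⟩ : ∃ i, m = i + 1 := ⟨m - 1, by omega⟩
    have ihi := ih i (by omega) (by omega) (by omega)
    have ihi' := ih (i - 1) (by omega) (by omega) (by omega)
    rw [pred_nsmul (by omega : 1 ≤ i)] at ihi'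
    have hlt : lab v e (i • Q) < lab v e Q := by
      rw [ihi]
      exact pow_lt_self_of_lt_one₀ h0 h1 (by omega)
    have hCi : v (cc W e) < lab v e (i • Q) := by
      rw [ihi]; exact hC i (by omega)
    obtain ⟨w, hcase, hw1, -, -⟩ := lab_pair H hlt hCi h1
    have hw : w = τ ^ (i + 1) := by
      rw [hw1 (by rw [ihi, ← pow_succ]; exact hC (i + 1) hmp), ihi, ← pow_succ]
    have hdiv : lab v e (i • Q) / lab v e Q = τ ^ (i - 1) := by
      rw [ihi]
      apply div_eq_of_eq_mul h0.ne'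
      rw [← pow_succ]
      congr 1
      omega
    rw [succ_nsmul]
    rcases hcase with ⟨ha, hb⟩ | ⟨ha, hb⟩
    · rw [ha, hdiv, ← ihi', hb, hw]
    · rw [ha, hw]

include hp hp2 in
/-- **Main theorem of the x-only route.** Every `p`-torsion point differs from an integer
multiple of the special point `Q` by an element of `E0`. -/
theorem exists_zsmul_sub_mem_E0 {Q : W.Point} (hQ : lab v e Q ^ p = v (cc W e) ^ 2)
    {P : W.Point} (hpP : p • P = 0) : ∃ m : ℤ, P - m • Q ∈ E0 H := by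
  by_cases hP : P ∈ E0 H
  · exact ⟨0, by simpa using hP⟩
  obtain ⟨n, hn1, hn2, hlab⟩ := lab_eq_pow H hp hp2 hpP hP hQ
  have hnQ := lab_nsmul_special H hp hQ n hn1 hn2
  obtain ⟨h0, h1, hC⟩ := tau_facts H hp hQ
  have hlab' : lab v e P = lab v e (n • Q) := by rw [hnQ, hlab]
  have hCP : v (cc W e) < lab v e P := by rw [hlab]; exact hC n hn2
  have h1P : lab v e P < 1 := by
    rw [mem_E0, not_le] at hP
    exact hP
  rcases pl3_point H hlab' hCP h1P with h | h
  · exact ⟨n, by rwa [natCast_zsmul]⟩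
  · refine ⟨-n, ?_⟩
    rwa [neg_smul, sub_neg_eq_add, natCast_zsmul]

end Final

end

end Fermat.Agent.S05.XOnly
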