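import Mathlib

set_option autoImplicit false

/-!
# Pure valuation consequences of the centred x-only identities
-/

namespace Fermat.Agent.S05.XOnly

variable {K : Type*} [Field K] {Γ₀ : Type*} [LinearOrderedCommGroupWithZero Γ₀]
  (v : Valuation K Γ₀)

lemma both_lt_one {r s : K} (hS : v (r + s) < 1) (hP : v (r * s) < 1) : v r < 1 ∧ v s < 1 := by
  rw [map_mul] at hP
  constructor
  · by_contra hr
    rw [not_lt] at hr
    have hs : v s < 1 := by
      by_contra hs
      rw [not_lt] at hs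
      exact absurd hP (not_lt.mpr (Right.one_le_mul hr hs))
    have : v (r + s) = v r := Valuation.map_add_eq_of_lt_left v (lt_of_lt_of_le hs hr)
    rw [this] at hS
    exact absurd hS (not_lt.mpr hr)
  · by_contra hs
    rw [not_lt] at hs
    have hr : v r < 1 := by
      by_contra hr
      rw [not_lt] at hr
      exact absurd hP (not_lt.mpr (Right.one_le_mul hr hs))
    have : v (r + s) = v s := Valuation.map_add_eq_of_lt_right v (lt_of_lt_of_le hr hs)
    rw [this] at hS
    exact absurd hS (not_lt.mpr hs)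

lemma newton {r s : K} (hπ : v (r * s) < v (r + s) ^ 2) : v r = v (r + s) ∨ v s = v (r + s) := by
  rcases lt_trichotomy (v r) (v s) with h | h | h
  · right
    exact (Valuation.map_add_eq_of_lt_right v h).symm
  · exfalso
    rw [map_mul, ← h, ← sq] at hπ
    have h1 : v r < v (r + s) := lt_of_pow_lt_pow_left' 2 hπ
    have h2 : v (r + s) ≤ v r := Valuation.map_add_le v le_rfl h.symm.le
    exact absurd h1 (not_lt.mpr h2)
  · left
    exact (Valuation.map_add_eq_of_lt_left v h).symm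

section Aux

variable {Γ : Type*} [LinearOrderedCommGroupWithZero Γ]

lemma lt_one_of_mul_lt {a u : Γ} (h : a * u < u) : a < 1 := by
  by_contra hcon
  rw [not_lt] at hcon
  have := mul_le_mul_left hcon u
  rw [one_mul] at this
  exact absurd h (not_lt.mpr this)

lemma one_le_of_le_mul {a u : Γ} (hu : 0 < u) (h : u ≤ a * u) : 1 ≤ a := by
  by_contra hcon
  rw [not_le] at hcon
  have := mul_lt_mul_of_pos_right hcon hu
  rw [one_mul] at this
  exact absurd h (not_le.mpr this)

lemma le_sq_of_one_le {u : Γ} (h : 1 ≤ u) : u ≤ u ^ 2 := by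
  have := mul_le_mul_left h u
  simpa [sq] using this

lemma mul_lt_of_lt_one {a u : Γ} (hu : 0 < u) (h : a < 1) : u * a < u := by
  have := mul_lt_mul_of_pos_left h hu
  simpa using this

end Aux

section PairLaws

variable {cc bb : K} (h2 : v 2 = 1) (hb : v bb = 1) (hc1 : v cc < 1)

include h2 in
lemma val_four : v 4 = 1 := by
  have : (4 : K) = 2 * 2 := by norm_num
  rw [this, map_mul, h2, one_mul]

include h2 in
lemma val_two_mul (x : K) : v (2 * x) = v x := by rw [map_mul, h2, one_mul]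

include h2 hb hc1 in
/-- PL4: adding a point of `E0` to a point outside `E0` stays outside `E0`. -/
lemma pl4 {X₁ X₂ r s : K}
    (hS : (r + s) * (X₁ - X₂) ^ 2 = (X₁ + X₂) * (2 * X₁ * X₂ + cc) + bb * X₁ * X₂)
    (hP : 4 * r * s * (X₁ - X₂) ^ 2 = (2 * X₁ * X₂ - cc) ^ 2)
    (h₁ : 1 ≤ v X₁) (h₂ : v X₂ < 1) : v r < 1 ∧ v s < 1 := by
  set U := v X₁ with hU
  have hU0 : 0 < U := lt_of_lt_of_le zero_lt_one h₁
  have h21 : v X₂ < U := lt_of_lt_of_le h₂ h₁
  have hd : v (X₁ - X₂) = U := Valuation.map_sub_eq_of_lt_left v h21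
  have hs : v (X₁ + X₂) = U := Valuation.map_add_eq_of_lt_left v h21
  have hUU : U ≤ U ^ 2 := le_sq_of_one_le h₁
  have hx12 : v (2 * X₁ * X₂) < U := by
    rw [mul_assoc, val_two_mul v h2, map_mul, ← hU]
    have := mul_lt_mul_of_pos_left h₂ hU0
    simpa using this
  have hcU : v cc < U := lt_of_lt_of_le hc1 h₁
  have hm : v (2 * X₁ * X₂ - cc) < U := Valuation.map_sub_lt v hx12 hcU
  have hp : v (2 * X₁ * X₂ + cc) < U := Valuation.map_add_lt v hx12 hcU
  have hU2 : 0 < U ^ 2 := pow_pos hU0 2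
  apply both_lt_one
  · -- sum
    have e := congrArg v hS
    rw [map_mul, map_pow, hd] at e
    have hnum : v ((X₁ + X₂) * (2 * X₁ * X₂ + cc) + bb * X₁ * X₂) < U ^ 2 := by
      apply Valuation.map_add_lt
      · rw [map_mul, hs, sq]
        exact mul_lt_mul_of_pos_left hp hU0
      · rw [map_mul, map_mul, hb, one_mul, ← hU]
        refine lt_of_lt_of_le ?_ hUU
        have := mul_lt_mul_of_pos_left h₂ hU0
        simpa using this
    rw [← e] at hnum
    exact lt_one_of_mul_lt hnum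
  · -- product
    have e := congrArg v hP
    rw [map_mul, map_pow, map_pow, hd, mul_assoc, map_mul, val_four v h2, one_mul] at e
    have hnum : v (2 * X₁ * X₂ - cc) ^ 2 < U ^ 2 := pow_lt_pow_left₀ hm zero_le (by norm_num)
    rw [← e] at hnum
    exact lt_one_of_mul_lt hnum

include h2 hb in
/-- PL3: equal labels in `(C,1)` force one of `P ± Q` into `E0`. -/
lemma pl3 {X₁ X₂ r s : K}
    (hS : (r + s) * (X₁ - X₂) ^ 2 = (X₁ + X₂) * (2 * X₁ * X₂ + cc) + bb * X₁ * X₂)
    (hne : X₁ ≠ X₂) (h12 : v X₁ = v X₂) (hC : v cc < v X₁) (h1 : v X₁ < 1) :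
    1 ≤ v r ∨ 1 ≤ v s := by
  set t := v X₁ with ht
  have ht0 : 0 < t := lt_of_le_of_lt zero_le hC
  have hd0 : 0 < v (X₁ - X₂) := by
    rw [zero_lt_iff, Valuation.ne_zero_iff]
    exact sub_ne_zero.mpr hne
  have hd : v (X₁ - X₂) ≤ t := Valuation.map_sub_le v le_rfl h12.symm.le
  have hs : v (X₁ + X₂) ≤ t := Valuation.map_add_le v le_rfl h12.symm.le
  have htt : t ^ 2 < t := by
    have := mul_lt_of_lt_one ht0 h1
    simpa [sq] using this
  have hx12 : v (2 * X₁ * X₂) = t ^ 2 := by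
    rw [mul_assoc, val_two_mul v h2, map_mul, ← h12, ← ht, sq]
  have hp : v (2 * X₁ * X₂ + cc) < t :=
    Valuation.map_add_lt v (by rw [hx12]; exact htt) hC
  have hnum : v ((X₁ + X₂) * (2 * X₁ * X₂ + cc) + bb * X₁ * X₂) = t ^ 2 := by
    have hB : v (bb * X₁ * X₂) = t ^ 2 := by
      rw [map_mul, map_mul, hb, one_mul, ← h12, ← ht, sq]
    have hA : v ((X₁ + X₂) * (2 * X₁ * X₂ + cc)) < t ^ 2 := by
      rw [map_mul, sq]
      exact lt_of_le_of_lt (mul_le_mul_left hs _) (mul_lt_mul_of_pos_left hp ht0)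
    rw [← hB] at hA ⊢
    exact Valuation.map_add_eq_of_lt_right v hA
  have e := congrArg v hS
  rw [map_mul, map_pow, hnum] at e
  have hge : 1 ≤ v (r + s) := by
    apply one_le_of_le_mul (pow_pos hd0 2)
    rw [e]
    exact pow_le_pow_left₀ zero_le hd 2
  by_contra hcon
  rw [not_or, not_le, not_le] at hcon
  exact absurd (Valuation.map_add_lt v hcon.1 hcon.2) (not_lt.mpr hge)

include h2 hb in
/-- PL1: distinct labels in `(C,1)`. -/
lemma pl1 {X₁ X₂ r s : K}
    (hS : (r + s) * (X₁ - X₂) ^ 2 = (X₁ + X₂) * (2 * X₁ * X₂ + cc) + bb * X₁ * X₂)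
    (hP : 4 * r * s * (X₁ - X₂) ^ 2 = (2 * X₁ * X₂ - cc) ^ 2)
    (h12 : v X₁ < v X₂) (hC : v cc < v X₁) (h1 : v X₂ < 1) :
    ∃ w : Γ₀, ((v r = v X₁ / v X₂ ∧ v s = w) ∨ (v r = w ∧ v s = v X₁ / v X₂)) ∧
      (v cc < v X₁ * v X₂ → w = v X₁ * v X₂) ∧
      (v X₁ * v X₂ < v cc → w = v cc ^ 2 / (v X₁ * v X₂)) ∧
      (v X₁ * v X₂ = v cc → w ≤ v cc) := by
  set μ := v X₁ with hμ
  set M := v X₂ with hM
  have hμ0 : 0 < μ := lt_of_le_of_lt zero_le hC
  have hM0 : 0 < M := lt_trans hμ0 h12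
  have hμM0 : 0 < μ * M := mul_pos hμ0 hM0
  have hd : v (X₁ - X₂) = M := Valuation.map_sub_eq_of_lt_right v h12
  have hs : v (X₁ + X₂) = M := Valuation.map_add_eq_of_lt_right v h12
  have hx12 : v (2 * X₁ * X₂) = μ * M := by
    rw [mul_assoc, val_two_mul v h2, map_mul]
  have hμM : μ * M < μ := mul_lt_of_lt_one hμ0 h1
  have hp : v (2 * X₁ * X₂ + cc) < μ :=
    Valuation.map_add_lt v (by rw [hx12]; exact hμM) hC
  have hN : v (2 * X₁ * X₂ - cc) < μ :=
    Valuation.map_sub_lt v (by rw [hx12]; exact hμM) hC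
  have hnum : v ((X₁ + X₂) * (2 * X₁ * X₂ + cc) + bb * X₁ * X₂) = μ * M := by
    have hB : v (bb * X₁ * X₂) = μ * M := by
      rw [map_mul, map_mul, hb, one_mul]
    have hA : v ((X₁ + X₂) * (2 * X₁ * X₂ + cc)) < μ * M := by
      rw [map_mul, hs, mul_comm μ M]
      exact mul_lt_mul_of_pos_left hp hM0
    rw [← hB] at hA ⊢
    exact Valuation.map_add_eq_of_lt_right v hA
  have e := congrArg v hS
  rw [map_mul, map_pow, hnum, hd] at e
  have e' : v (r + s) * M = μ := by
    have : v (r + s) * M * M = μ * M := by rw [← e, sq, mul_assoc]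
    exact (mul_right_cancel_iff_of_pos hM0).mp this
  have eP := congrArg v hP
  rw [map_mul, map_pow, map_pow, hd, mul_assoc, map_mul, val_four v h2, one_mul] at eP
  set N := v (2 * X₁ * X₂ - cc) with hNdef
  have hnewt : v (r * s) < v (r + s) ^ 2 := by
    have h1' : v (r * s) * M ^ 2 < v (r + s) ^ 2 * M ^ 2 := by
      rw [eP, ← mul_pow, e']
      exact pow_lt_pow_left₀ hN zero_le (by norm_num)
    exact lt_of_mul_lt_mul_right' h1'
  have hsum : v (r + s) = μ / M := eq_div_of_mul_eq hM0.ne' e'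
  rw [map_mul] at eP
  refine ⟨N ^ 2 / (μ * M), ?_, ?_, ?_, ?_⟩
  · rcases newton v hnewt with h | h
    · left
      refine ⟨h.trans hsum, ?_⟩
      apply eq_div_of_mul_eq hμM0.ne'
      calc v s * (μ * M) = v r * v s * M ^ 2 := by rw [← e', ← h, sq]; ac_rfl
        _ = N ^ 2 := eP
    · right
      refine ⟨?_, h.trans hsum⟩
      apply eq_div_of_mul_eq hμM0.ne'
      calc v r * (μ * M) = v r * v s * M ^ 2 := by rw [← e', ← h, sq]; ac_rfl
        _ = N ^ 2 := eP
  · intro hlt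
    have : N = μ * M := by
      rw [hNdef, ← hx12]
      exact Valuation.map_sub_eq_of_lt_left v (by rw [hx12]; exact hlt)
    rw [this, sq, mul_self_div_self]
  · intro hlt
    have : N = v cc := by
      rw [hNdef]
      exact Valuation.map_sub_eq_of_lt_right v (by rw [hx12]; exact hlt)
    rw [this]
  · intro heq
    have hle : N ≤ v cc := by
      rw [hNdef]
      exact Valuation.map_sub_le v (by rw [hx12, heq]) le_rfl
    rw [heq, div_le_iff₀ (by rw [← heq]; exact hμM0), ← sq]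
    exact pow_le_pow_left₀ zero_le hle 2

include h2 hb hc1 in
/-- PL2': a label `≤ C` doubles into `E0`. -/
lemma pl2' {X r : K}
    (hD : 4 * r * (4 * X ^ 3 + bb * X ^ 2 + 2 * cc * X) = (2 * X ^ 2 - cc) ^ 2)
    (hD0 : 4 * X ^ 3 + bb * X ^ 2 + 2 * cc * X ≠ 0) (hcc0 : cc ≠ 0) (ht : v X ≤ v cc) :
    1 ≤ v r := by
  set t := v X with htdef
  set C := v cc with hCdef
  have hC0 : 0 < C := by rw [zero_lt_iff, hCdef, Valuation.ne_zero_iff]; exact hcc0
  have hCC : C ^ 2 < C := by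
    have := mul_lt_of_lt_one hC0 hc1
    simpa [sq] using this
  have ht1 : t ≤ 1 := le_trans ht hc1.le
  have htt : t ^ 2 ≤ C ^ 2 := pow_le_pow_left₀ zero_le ht 2
  have hx2 : v (2 * X ^ 2) = t ^ 2 := by rw [val_two_mul v h2, map_pow]
  have hnum : v (2 * X ^ 2 - cc) = C :=
    Valuation.map_sub_eq_of_lt_right v (by rw [hx2]; exact lt_of_le_of_lt htt hCC)
  have hfac : 4 * X ^ 3 + bb * X ^ 2 + 2 * cc * X = X * (4 * X ^ 2 + bb * X + 2 * cc) := by ring
  have hq : v (4 * X ^ 2 + bb * X + 2 * cc) ≤ C := by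
    apply Valuation.map_add_le
    · apply Valuation.map_add_le
      · rw [map_mul, val_four v h2, one_mul, map_pow]
        exact le_trans htt hCC.le
      · rw [map_mul, hb, one_mul]
        exact ht
    · rw [val_two_mul v h2]
  have hDv : v (4 * X ^ 3 + bb * X ^ 2 + 2 * cc * X) ≤ C ^ 2 := by
    rw [hfac, map_mul, sq C]
    exact mul_le_mul' ht hq
  have hD0' : 0 < v (4 * X ^ 3 + bb * X ^ 2 + 2 * cc * X) := by
    rw [zero_lt_iff, Valuation.ne_zero_iff]; exact hD0
  have e := congrArg v hD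
  rw [map_mul, map_mul, val_four v h2, one_mul, map_pow, hnum] at e
  apply one_le_of_le_mul hD0'
  rw [e]
  exact hDv

include h2 hb in
/-- valuation of the 2-division cubic at a label in `(C,1)`. -/
lemma val_dup_den {X : K} (hC : v cc < v X) (h1 : v X < 1) :
    v (4 * X ^ 3 + bb * X ^ 2 + 2 * cc * X) = v X ^ 2 := by
  set t := v X with htdef
  have ht0 : 0 < t := lt_of_le_of_lt zero_le hC
  have htt : t ^ 2 < t := by
    have := mul_lt_of_lt_one ht0 h1
    simpa [sq] using this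
  have hfac : 4 * X ^ 3 + bb * X ^ 2 + 2 * cc * X = X * (4 * X ^ 2 + bb * X + 2 * cc) := by ring
  have hq : v (4 * X ^ 2 + bb * X + 2 * cc) = t := by
    have h4 : v (4 * X ^ 2) = t ^ 2 := by rw [map_mul, val_four v h2, one_mul, map_pow]
    have hbX : v (bb * X) = t := by rw [map_mul, hb, one_mul]
    have h1' : v (4 * X ^ 2 + bb * X) = t := by
      rw [← hbX]
      exact Valuation.map_add_eq_of_lt_right v (by rw [h4, hbX]; exact htt)
    rw [← h1']
    exact Valuation.map_add_eq_of_lt_left v (by rw [val_two_mul v h2, h1']; exact hC)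
  rw [hfac, map_mul, hq, sq]

include h2 hb in
/-- PL2: duplication of a label in `(C,1)`. -/
lemma pl2 {X r : K}
    (hD : 4 * r * (4 * X ^ 3 + bb * X ^ 2 + 2 * cc * X) = (2 * X ^ 2 - cc) ^ 2)
    (hC : v cc < v X) (h1 : v X < 1) :
    4 * X ^ 3 + bb * X ^ 2 + 2 * cc * X ≠ 0 ∧
      (v cc < v X ^ 2 → v r = v X ^ 2) ∧
      (v X ^ 2 < v cc → v r = v cc ^ 2 / v X ^ 2) ∧
      (v X ^ 2 = v cc → v r ≤ v cc) := by
  have hDv := val_dup_den v h2 hb hC h1
  set t := v X with htdef
  have ht0 : 0 < t := lt_of_le_of_lt zero_le hC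
  have ht20 : 0 < t ^ 2 := pow_pos ht0 2
  have hx2 : v (2 * X ^ 2) = t ^ 2 := by rw [val_two_mul v h2, map_pow]
  have e := congrArg v hD
  rw [map_mul, map_mul, val_four v h2, one_mul, map_pow, hDv] at e
  refine ⟨?_, ?_, ?_, ?_⟩
  · rw [← Valuation.ne_zero_iff v, hDv]
    exact ht20.ne'
  · intro hlt
    have : v (2 * X ^ 2 - cc) = t ^ 2 := by
      rw [← hx2]
      exact Valuation.map_sub_eq_of_lt_left v (by rw [hx2]; exact hlt)
    rw [this, sq (t ^ 2)] at e
    exact (mul_right_cancel_iff_of_pos ht20).mp e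
  · intro hlt
    have : v (2 * X ^ 2 - cc) = v cc :=
      Valuation.map_sub_eq_of_lt_right v (by rw [hx2]; exact hlt)
    rw [this] at e
    exact eq_div_of_mul_eq ht20.ne' e
  · intro heq
    have hle : v (2 * X ^ 2 - cc) ≤ v cc :=
      Valuation.map_sub_le v (by rw [hx2, heq]) le_rfl
    have h3 : v r * t ^ 2 ≤ v cc * t ^ 2 := by
      rw [e, heq, ← sq]
      exact pow_le_pow_left₀ zero_le hle 2
    exact le_of_mul_le_mul_right h3 ht20

end PairLaws

end Fermat.Agent.S05.XOnly
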