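import Fermat.Agent.S05.XOnly.Ident
import Fermat.Agent.S05.XOnly.Val

set_option autoImplicit false
set_option linter.unusedSectionVars false

/-!
# Point-level form of the x-only identities and pair laws
-/

namespace Fermat.Agent.S05.XOnly

open WeierstrassCurve WeierstrassCurve.Affine

noncomputable section

variable {K : Type*} [Field K] [DecidableEq K] (W : Affine K) (e : K)

/-- centred x-coordinate of a point (`0` at infinity; irrelevant). -/
def Xc : W.Point → K
  | .zero => 0
  | .some x _ _ => x - e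

@[simp] lemma Xc_zero : Xc W e 0 = 0 := rfl

@[simp] lemma Xc_some {x y : K} (h : W.Nonsingular x y) : Xc W e (Point.some x y h) = x - e := rfl

@[simp] lemma Xc_neg (P : W.Point) : Xc W e (-P) = Xc W e P := by
  cases P with
  | zero => rfl
  | some x y h => rfl

variable {W e}

/-- The pair identities on points. -/
lemma pair_ident (he : IsTwoRoot W e) {P Q : W.Point} (hP : P ≠ 0) (hQ : Q ≠ 0)
    (hx : Xc W e P ≠ Xc W e Q) :
    P + Q ≠ 0 ∧ P - Q ≠ 0 ∧
      (Xc W e (P + Q) + Xc W e (P - Q)) * (Xc W e P - Xc W e Q) ^ 2 =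
        (Xc W e P + Xc W e Q) * (2 * Xc W e P * Xc W e Q + cc W e)
          + bb W e * Xc W e P * Xc W e Q ∧
      4 * Xc W e (P + Q) * Xc W e (P - Q) * (Xc W e P - Xc W e Q) ^ 2 =
        (2 * Xc W e P * Xc W e Q - cc W e) ^ 2 := by
  cases P with
  | zero => exact absurd rfl hP
  | some x₁ y₁ h₁ =>
  cases Q with
  | zero => exact absurd rfl hQ
  | some x₂ y₂ h₂ =>
  simp only [Xc_some] at hx ⊢
  have hx' : x₁ ≠ x₂ := fun h => hx (by rw [h])
  have hadd := Point.add_of_X_ne (h₁ := h₁) (h₂ := h₂) hx'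
  have hsub : Point.some x₁ y₁ h₁ - Point.some x₂ y₂ h₂ =
      Point.some _ _ (nonsingular_add h₁ ((nonsingular_neg ..).mpr h₂) fun hxy => hx' hxy.left) := by
    rw [sub_eq_add_neg, Point.neg_some, Point.add_of_X_ne hx']
  rw [hadd, hsub]
  refine ⟨Point.some_ne_zero _, Point.some_ne_zero _, ?_, ?_⟩
  · simp only [Xc_some]
    have := sum_ident W he h₁.1 h₂.1 hx'
    have e1 : x₁ - e - (x₂ - e) = x₁ - x₂ := by ring
    rw [e1, ← this]
    ring
  · simp only [Xc_some]
    have := prod_ident W he h₁.1 h₂.1 hx'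
    have e1 : x₁ - e - (x₂ - e) = x₁ - x₂ := by ring
    rw [e1, ← this]

/-- The duplication identity on points. -/
lemma dup_point (he : IsTwoRoot W e) {P : W.Point} (hP : P ≠ 0) :
    (4 * Xc W e P ^ 3 + bb W e * Xc W e P ^ 2 + 2 * cc W e * Xc W e P = 0 → P + P = 0) ∧
    (4 * Xc W e P ^ 3 + bb W e * Xc W e P ^ 2 + 2 * cc W e * Xc W e P ≠ 0 → P + P ≠ 0 ∧
      4 * Xc W e (P + P) * (4 * Xc W e P ^ 3 + bb W e * Xc W e P ^ 2 + 2 * cc W e * Xc W e P) =
        (2 * Xc W e P ^ 2 - cc W e) ^ 2) := by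
  cases P with
  | zero => exact absurd rfl hP
  | some x y h =>
  simp only [Xc_some]
  rw [← sq_sub_negY W he h.1]
  constructor
  · intro h0
    have hy : y = W.negY x y := sub_eq_zero.mp (by simpa using h0)
    exact Point.add_self_of_Y_eq hy
  · intro h0
    have hy : y ≠ W.negY x y := fun hy => h0 (by rw [← hy]; simp)
    rw [Point.add_self_of_Y_ne hy]
    refine ⟨Point.some_ne_zero _, ?_⟩
    simp only [Xc_some]
    exact dup_ident W he h.1 hy

end

end Fermat.Agent.S05.XOnly
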